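/-
S44 / F / Dual / Int (helper100).  SKELETON of NODE `DInt`: an element of `L(m ∞)` with `A`-integral principal part is
`A`-integral up to a constant.  Never import this file from a final file.

PLAN.
* (INT-1, `Int/Bdd.lean`) `bddRing A` = the subring of `ℚ̄((q))` of the series whose coefficients lie in a number field and
  have bounded `A`-denominators (closure under `+`, `*`: copy the `add`, `mul` cases of
  `GAL.E.exists_bound_of_mem_adjoin_aux`, `GAL/E/Bound.lean`).  It contains the constants and the series with coefficients in `ℤ_(p)`.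
* (INT-2, `Int/Euler.lean`) every element of `FN M` (`p ∤ M`) which is integral over `ℚ̄[j]` lies in `bddRing A`:
  `S28.euler_core` with base ring `ℚ̄[X]`, `φ = evalJ ℚ̄`, `χ = chiK`, `u = uK`, `T = bddRing A`, `l = 1` (`hC` is trivial).
* (INT-3, `Int/Integral.lean`) elements of `L(m ∞)` are integral over `ℚ̄[j]` (`S37.regInt`).
* (INT-4, `Int/Main.lean`) `GAL.E.exists_max_of_bounded` + `const_of_reg`.
-/
import Fermat.Agent.S44.F.Dual.NodesA
import Fermat.Agent.S44.F.Dual.Reg
import Fermat.Agent.S28.EulerCore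
import Fermat.Agent.GAL.E.Bound
import Fermat.Agent.GAL.E.Discrete
import Fermat.Agent.S37.RegInt

set_option autoImplicit false

noncomputable section

namespace Fermat.Agent.S44.F

open ModularCurve AlgebraicCurve Polynomial Fermat.Agent.S24 Fermat.Agent.GAL

/-! ### INT-1 -/

/-- coefficients in a number field, bounded `A`-denominators -/
def IsBdd (A : ValuationSubring Qb) (z : LaurentSeries Kbar) : Prop :=
  (∃ L : IntermediateField ℚ Kbar, FiniteDimensional ℚ L ∧ ∀ k, z.coeff k ∈ L) ∧
    ∃ c : Kbar, c ≠ 0 ∧ c ∈ A ∧ ∀ k, c * z.coeff k ∈ A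

theorem IsBdd.add {A : ValuationSubring Qb} {x y : LaurentSeries Kbar} (hx : IsBdd A x)
    (hy : IsBdd A y) : IsBdd A (x + y) := by
  sorry

theorem IsBdd.mul {A : ValuationSubring Qb} {x y : LaurentSeries Kbar} (hx : IsBdd A x)
    (hy : IsBdd A y) : IsBdd A (x * y) := by
  sorry

theorem IsBdd.neg {A : ValuationSubring Qb} {x : LaurentSeries Kbar} (hx : IsBdd A x) :
    IsBdd A (-x) := by
  sorry

theorem isBdd_C (A : ValuationSubring Qb) (a : Kbar) :
    IsBdd A (HahnSeries.C a : LaurentSeries Kbar) := by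
  sorry

/-- the subring of bounded series -/
def bddRing (A : ValuationSubring Qb) : Subring (LaurentSeries Kbar) where
  carrier := {z | IsBdd A z}
  mul_mem' := IsBdd.mul
  one_mem' := by simpa using isBdd_C A 1
  add_mem' := IsBdd.add
  zero_mem' := by simpa using isBdd_C A 0
  neg_mem' := IsBdd.neg

theorem mem_bddRing_iff (A : ValuationSubring Qb) (z : LaurentSeries Kbar) :
    z ∈ bddRing A ↔ IsBdd A z := Iff.rfl

/-- series with coefficients in `ℤ_(p)` are bounded -/
theorem isBdd_coeffMap_zl {p : ℕ} [Fact p.Prime] (A : ValuationSubring Qb) (hA : A.LiesOverPrime p)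
    (x : LaurentSeries (S28.Zl p)) :
    IsBdd A (coeffMap (A.subtype.comp (S18.Vert.zlTo A hA)) x) := by
  sorry

theorem isBdd_evalJ {p : ℕ} [Fact p.Prime] (A : ValuationSubring Qb) (hA : A.LiesOverPrime p)
    (P : Kbar[X]) : IsBdd A (S28.evalJ Kbar P) := by
  sorry

/-! ### INT-2 -/

theorem isBdd_of_isIntegralElem (p M : ℕ) [NeZero M] (hp : p.Prime) (hpM : ¬ p ∣ M)
    (A : ValuationSubring Qb) (hA : A.LiesOverPrime p) (x : LaurentSeries Kbar)
    (hx : x ∈ modularFunctionFieldBar M) (hint : (S28.evalJ Kbar).IsIntegralElem x) :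
    IsBdd A x := by
  sorry

/-! ### INT-3 -/

theorem isIntegralElem_of_mem_Linf (M : ℕ) [NeZero M] (m : ℕ) (b : FN M) (hb : b ∈ Linf M m) :
    (S28.evalJ Kbar).IsIntegralElem (b : LaurentSeries Kbar) := by
  sorry

/-! ### INT-4 -/

/-- a nonzero bounded series is a constant times an integral series with nonzero reduction -/
theorem exists_scaling_of_isBdd (p : ℕ) (hp : p.Prime) (A : ValuationSubring Qb)
    (hA : A.LiesOverPrime p) (z : LaurentSeries Kbar) (hz : IsBdd A z) (hz0 : z ≠ 0) :
    ∃ (c : Kbar) (x : LaurentSeries A), c ≠ 0 ∧ E.red A x ≠ 0 ∧ z = HahnSeries.C c * E.incl A x := by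
  sorry

theorem dInt : DInt := by
  sorry

end Fermat.Agent.S44.F

end
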